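import Mathlib
import Fermat.Agent.LT.T2.H973.ArchSpec

/-!
# Row LT, tower T2, sub-leaf T2.10.08.06 = R1 `SphereCoordC` (helper309)

OFF-MAIN.  `sphereCoordC309 : Fermat.Agent.LT.T2.H973.SphereCoordC`, VERBATIM the Prop of
`T2/H973/ArchSpec.lean`, unconditional.

Iwasawa coordinates of the geodesic sphere.  With `c = cos (β/2)`, `σ = sin (β/2)`,
`E = e^{d/2}`, `E' = e^{-d/2}`, `ζ = e^{iα/2}`, `ζ' = e^{-iα/2}`:
`M = rotZ α * rotY β * torus d = [[ζ c E, -ζ σ E'], [ζ' σ E, ζ' c E']]`,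
`D = cosh d - cos β sinh d = σ² E² + c² E'² > 0`, and
`t(eˢ) M = n(X) t(eˢ / D) (√D) U`, `U = (√D)⁻¹ [[ζ c E', -ζ σ E], [ζ' σ E, ζ' c E']]` unitary,
`X = eˢ sin β sinh d / D · e^{iα}`.
-/

set_option autoImplicit false
set_option linter.unusedSimpArgs false

open Fermat.Agent.LT.H556.A0
open scoped ComplexConjugate

noncomputable section

namespace Fermat.Agent.LT.T2.H309

open Fermat.Agent.LT.T2.H973

theorem sphD_eq309 (β d : ℝ) :
    sphD β d = Real.sin (β / 2) ^ 2 * Real.exp (d / 2) ^ 2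
      + Real.cos (β / 2) ^ 2 * Real.exp (-(d / 2)) ^ 2 := by
  have h1 : Real.cos β = 2 * Real.cos (β / 2) ^ 2 - 1 := by
    rw [← Real.cos_two_mul]; congr 1; ring
  have h2 : Real.sin (β / 2) ^ 2 = 1 - Real.cos (β / 2) ^ 2 := by
    have := Real.cos_sq_add_sin_sq (β / 2); linarith
  have h3 : Real.exp d = Real.exp (d / 2) ^ 2 := by
    rw [sq, ← Real.exp_add]; congr 1; ring
  have h4 : Real.exp (-d) = Real.exp (-(d / 2)) ^ 2 := by
    rw [sq, ← Real.exp_add]; congr 1; ring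
  rw [sphD, Real.cosh_eq, Real.sinh_eq, h1, h2, h3, h4]
  ring

theorem sphD_pos309 (β d : ℝ) : 0 < sphD β d := by
  rw [sphD_eq309]
  have h1 := Real.cos_sq_add_sin_sq (β / 2)
  have hE : 0 < Real.exp (d / 2) ^ 2 := by positivity
  have hE' : 0 < Real.exp (-(d / 2)) ^ 2 := by positivity
  have hs : 0 ≤ Real.sin (β / 2) ^ 2 := sq_nonneg _
  have hc : 0 ≤ Real.cos (β / 2) ^ 2 := sq_nonneg _
  by_cases h : Real.sin (β / 2) ^ 2 = 0
  · have hc1 : Real.cos (β / 2) ^ 2 = 1 := by linarith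
    rw [h, hc1]; linarith
  · have hs' : 0 < Real.sin (β / 2) ^ 2 := lt_of_le_of_ne hs (Ne.symm h)
    have := mul_pos hs' hE
    have := mul_nonneg hc hE'.le
    linarith

theorem rot_mul309 (α β d : ℝ) :
    rotZ α * rotY β * torus d
      = !![Complex.exp (Complex.I * ((α / 2 : ℝ) : ℂ)) * ((Real.cos (β / 2) : ℝ) : ℂ)
              * ((Real.exp (d / 2) : ℝ) : ℂ),
            -(Complex.exp (Complex.I * ((α / 2 : ℝ) : ℂ)) * ((Real.sin (β / 2) : ℝ) : ℂ)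
              * ((Real.exp (-(d / 2)) : ℝ) : ℂ));
          Complex.exp (-(Complex.I * ((α / 2 : ℝ) : ℂ))) * ((Real.sin (β / 2) : ℝ) : ℂ)
              * ((Real.exp (d / 2) : ℝ) : ℂ),
            Complex.exp (-(Complex.I * ((α / 2 : ℝ) : ℂ))) * ((Real.cos (β / 2) : ℝ) : ℂ)
              * ((Real.exp (-(d / 2)) : ℝ) : ℂ)] := by
  ext i j
  fin_cases i <;> fin_cases j <;>
    simp [rotZ, rotY, torus, Matrix.mul_apply, Fin.sum_univ_two]

/-- The matrix `M = [[ζ c E, -ζ σ E'], [ζ' σ E, ζ' c E']]`. -/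
def mGen309 (ζ ζ' : ℂ) (c σ E E' : ℝ) : Matrix (Fin 2) (Fin 2) ℂ :=
  !![ζ * (c : ℂ) * (E : ℂ), -(ζ * (σ : ℂ) * (E' : ℂ)); ζ' * (σ : ℂ) * (E : ℂ), ζ' * (c : ℂ) * (E' : ℂ)]

/-- The matrix `N = [[ζ c E', -ζ σ E], [ζ' σ E, ζ' c E']]`. -/
def nGen309 (ζ ζ' : ℂ) (c σ E E' : ℝ) : Matrix (Fin 2) (Fin 2) ℂ :=
  !![ζ * (c : ℂ) * (E' : ℂ), -(ζ * (σ : ℂ) * (E : ℂ)); ζ' * (σ : ℂ) * (E : ℂ), ζ' * (c : ℂ) * (E' : ℂ)]

theorem nGen_mul_conjTranspose309 (ζ ζ' : ℂ) (c σ E E' : ℝ) (hζ : ζ * ζ' = 1)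
    (hconj : conj ζ = ζ') :
    nGen309 ζ ζ' c σ E E' * (nGen309 ζ ζ' c σ E E').conjTranspose
      = Matrix.diagonal (fun _ => ((σ ^ 2 * E ^ 2 + c ^ 2 * E' ^ 2 : ℝ) : ℂ)) := by
  have hconj' : conj ζ' = ζ := by rw [← hconj, Complex.conj_conj]
  ext i j
  fin_cases i <;> fin_cases j
  · simp [nGen309, Matrix.mul_apply, Fin.sum_univ_two, Matrix.conjTranspose_apply, map_mul,
      map_neg, hconj, hconj', Complex.conj_ofReal]
    linear_combination ((c : ℂ) ^ 2 * (E' : ℂ) ^ 2 + (σ : ℂ) ^ 2 * (E : ℂ) ^ 2) * hζ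
  · simp [nGen309, Matrix.mul_apply, Fin.sum_univ_two, Matrix.conjTranspose_apply, map_mul,
      map_neg, hconj, hconj', Complex.conj_ofReal]
    ring
  · simp [nGen309, Matrix.mul_apply, Fin.sum_univ_two, Matrix.conjTranspose_apply, map_mul,
      map_neg, hconj, hconj', Complex.conj_ofReal]
    ring
  · simp [nGen309, Matrix.mul_apply, Fin.sum_univ_two, Matrix.conjTranspose_apply, map_mul,
      map_neg, hconj, hconj', Complex.conj_ofReal]
    linear_combination ((c : ℂ) ^ 2 * (E' : ℂ) ^ 2 + (σ : ℂ) ^ 2 * (E : ℂ) ^ 2) * hζ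

/-- The decomposition, as an identity of matrices. -/
theorem decomp309 (ζ ζ' : ℂ) (c σ E E' es D r : ℝ) (hζ : ζ * ζ' = 1)
    (hcs : c ^ 2 + σ ^ 2 = 1) (hE : E * E' = 1) (hD : D = σ ^ 2 * E ^ 2 + c ^ 2 * E' ^ 2)
    (hD0 : D ≠ 0) (hr : r ≠ 0) :
    (!![(es : ℂ), 0; 0, 1] : Matrix (Fin 2) (Fin 2) ℂ) * mGen309 ζ ζ' c σ E E'
      = !![1, ((es * (2 * σ * c) * ((E ^ 2 - E' ^ 2) / 2) / D : ℝ) : ℂ) * ζ ^ 2; 0, 1]
        * (!![((es / D : ℝ) : ℂ), 0; 0, 1] * Matrix.diagonal (fun _ => (r : ℂ))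
          * ((r : ℂ)⁻¹ • nGen309 ζ ζ' c σ E E')) := by
  have hrC : (r : ℂ) ≠ 0 := Complex.ofReal_ne_zero.mpr hr
  have hDC : (D : ℂ) ≠ 0 := Complex.ofReal_ne_zero.mpr hD0
  have hcsC : (c : ℂ) ^ 2 + (σ : ℂ) ^ 2 = 1 := by exact_mod_cast hcs
  have hEC : (E : ℂ) * (E' : ℂ) = 1 := by exact_mod_cast hE
  have hDC' : (D : ℂ) = (σ : ℂ) ^ 2 * (E : ℂ) ^ 2 + (c : ℂ) ^ 2 * (E' : ℂ) ^ 2 := by
    exact_mod_cast hD
  have key1 : (es : ℂ) * ζ * c * E * D
      = es * ζ * c * E' + es * σ ^ 2 * c * ((E : ℂ) ^ 2 - (E' : ℂ) ^ 2) * ζ ^ 2 * ζ' * E := by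
    rw [hDC']
    linear_combination ((es : ℂ) * ζ * c * E' ^ 2 * E) * hcsC + ((es : ℂ) * ζ * c * E') * hEC
      - ((es : ℂ) * σ ^ 2 * c * ((E : ℂ) ^ 2 - (E' : ℂ) ^ 2) * E * ζ) * hζ
  have key2 : (es : ℂ) * ζ * σ * E' * D
      = es * ζ * σ * E - es * σ * c ^ 2 * ((E : ℂ) ^ 2 - (E' : ℂ) ^ 2) * ζ ^ 2 * ζ' * E' := by
    rw [hDC']
    linear_combination ((es : ℂ) * ζ * σ * E ^ 2 * E') * hcsC + ((es : ℂ) * ζ * σ * E) * hEC
      + ((es : ℂ) * σ * c ^ 2 * ((E : ℂ) ^ 2 - (E' : ℂ) ^ 2) * E' * ζ) * hζ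
  ext i j
  fin_cases i <;> fin_cases j
  · simp [mGen309, nGen309, Matrix.mul_apply, Fin.sum_univ_two, Matrix.diagonal_apply]
    field_simp
    linear_combination key1
  · simp [mGen309, nGen309, Matrix.mul_apply, Fin.sum_univ_two, Matrix.diagonal_apply]
    field_simp
    linear_combination (-1) * key2
  · simp [mGen309, nGen309, Matrix.mul_apply, Fin.sum_univ_two, Matrix.diagonal_apply]
    field_simp
  · simp [mGen309, nGen309, Matrix.mul_apply, Fin.sum_univ_two, Matrix.diagonal_apply]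
    field_simp

/-- The scalar matrix `r` of `GL₂(ℂ)`. -/
def zS309 (r : ℝ) (hr : r ≠ 0) : GL (Fin 2) ℂ :=
  ⟨Matrix.diagonal (fun _ => (r : ℂ)), Matrix.diagonal (fun _ => ((r : ℂ))⁻¹),
    by
      have h : (r : ℂ) ≠ 0 := Complex.ofReal_ne_zero.mpr hr
      rw [Matrix.diagonal_mul_diagonal]
      simp [h, ← Matrix.diagonal_one],
    by
      have h : (r : ℂ) ≠ 0 := Complex.ofReal_ne_zero.mpr hr
      rw [Matrix.diagonal_mul_diagonal]
      simp [h, ← Matrix.diagonal_one]⟩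

theorem conj_zeta309 (t : ℝ) :
    conj (Complex.exp (Complex.I * (t : ℂ))) = Complex.exp (-(Complex.I * (t : ℂ))) := by
  rw [← Complex.exp_conj]
  congr 1
  simp

/-- **R1 `SphereCoordC`**, verbatim. -/
theorem sphereCoordC309 : SphereCoordC := by
  intro χ f hN hU hZ s α β d Y hY
  have hDpos := sphD_pos309 β d
  have hD0 : sphD β d ≠ 0 := hDpos.ne'
  have hDeq := sphD_eq309 β d
  have hζ : Complex.exp (Complex.I * ((α / 2 : ℝ) : ℂ))
      * Complex.exp (-(Complex.I * ((α / 2 : ℝ) : ℂ))) = 1 := by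
    rw [← Complex.exp_add]; simp
  have hconj := conj_zeta309 (α / 2)
  have hcs : Real.cos (β / 2) ^ 2 + Real.sin (β / 2) ^ 2 = 1 := Real.cos_sq_add_sin_sq _
  have hE : Real.exp (d / 2) * Real.exp (-(d / 2)) = 1 := by
    rw [← Real.exp_add]; simp
  have hrpos : 0 < Real.sqrt (sphD β d) := Real.sqrt_pos.mpr hDpos
  have hr0 : Real.sqrt (sphD β d) ≠ 0 := hrpos.ne'
  have hrC : ((Real.sqrt (sphD β d) : ℝ) : ℂ) ≠ 0 := Complex.ofReal_ne_zero.mpr hr0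
  have hrr : ((Real.sqrt (sphD β d) : ℝ) : ℂ) * ((Real.sqrt (sphD β d) : ℝ) : ℂ)
      = ((sphD β d : ℝ) : ℂ) := by
    exact_mod_cast Real.mul_self_sqrt hDpos.le
  -- the unitary factor
  have hUU : (((Real.sqrt (sphD β d) : ℝ) : ℂ)⁻¹ •
        nGen309 (Complex.exp (Complex.I * ((α / 2 : ℝ) : ℂ)))
          (Complex.exp (-(Complex.I * ((α / 2 : ℝ) : ℂ))))
          (Real.cos (β / 2)) (Real.sin (β / 2)) (Real.exp (d / 2)) (Real.exp (-(d / 2))))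
      * (((Real.sqrt (sphD β d) : ℝ) : ℂ)⁻¹ •
        nGen309 (Complex.exp (Complex.I * ((α / 2 : ℝ) : ℂ)))
          (Complex.exp (-(Complex.I * ((α / 2 : ℝ) : ℂ))))
          (Real.cos (β / 2)) (Real.sin (β / 2)) (Real.exp (d / 2))
          (Real.exp (-(d / 2)))).conjTranspose = 1 := by
    rw [Matrix.conjTranspose_smul, Matrix.smul_mul, Matrix.mul_smul,
      nGen_mul_conjTranspose309 _ _ _ _ _ _ hζ hconj, ← hDeq, ← hrr]
    ext i j
    by_cases hij : i = j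
    · subst hij
      simp only [Matrix.smul_apply, Matrix.diagonal_apply_eq, Matrix.one_apply_eq, smul_eq_mul,
        star_inv₀, RCLike.star_def, Complex.conj_ofReal]
      field_simp
    · simp [Matrix.diagonal_apply_ne _ hij, Matrix.one_apply_ne hij]
  let U : GL (Fin 2) ℂ := ⟨_, _, hUU, mul_eq_one_comm.mp hUU⟩
  have hexp : Real.exp (s - Real.log (sphD β d)) = Real.exp s / sphD β d := by
    rw [Real.exp_sub, Real.exp_log hDpos]
  have hsin : Real.sin β = 2 * Real.sin (β / 2) * Real.cos (β / 2) := by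
    rw [← Real.sin_two_mul]; congr 1; ring
  have hsinh : Real.sinh d = (Real.exp (d / 2) ^ 2 - Real.exp (-(d / 2)) ^ 2) / 2 := by
    have h3 : Real.exp d = Real.exp (d / 2) ^ 2 := by
      rw [sq, ← Real.exp_add]; congr 1; ring
    have h4 : Real.exp (-d) = Real.exp (-(d / 2)) ^ 2 := by
      rw [sq, ← Real.exp_add]; congr 1; ring
    rw [Real.sinh_eq, h3, h4]
  have hz2 : Complex.exp (Complex.I * (α : ℂ))
      = Complex.exp (Complex.I * ((α / 2 : ℝ) : ℂ)) ^ 2 := by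
    rw [sq, ← Complex.exp_add]; congr 1; push_cast; ring
  have hX : ((Real.exp s * Real.sin β * Real.sinh d / sphD β d : ℝ) : ℂ)
        * Complex.exp (Complex.I * (α : ℂ))
      = ((Real.exp s * (2 * Real.sin (β / 2) * Real.cos (β / 2))
          * ((Real.exp (d / 2) ^ 2 - Real.exp (-(d / 2)) ^ 2) / 2) / sphD β d : ℝ) : ℂ)
        * Complex.exp (Complex.I * ((α / 2 : ℝ) : ℂ)) ^ 2 := by
    rw [hz2, hsin, hsinh]
  have key : tE s * Y
      = nC (((Real.exp s * Real.sin β * Real.sinh d / sphD β d : ℝ) : ℂ)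
          * Complex.exp (Complex.I * (α : ℂ)))
        * (tE (s - Real.log (sphD β d)) * zS309 (Real.sqrt (sphD β d)) hr0 * U) := by
    apply Units.ext
    have e1 : ((tE s : GL (Fin 2) ℂ) : Matrix (Fin 2) (Fin 2) ℂ)
        = !![((Real.exp s : ℝ) : ℂ), 0; 0, 1] := rfl
    have e2 : ((tE (s - Real.log (sphD β d)) : GL (Fin 2) ℂ) : Matrix (Fin 2) (Fin 2) ℂ)
        = !![((Real.exp s / sphD β d : ℝ) : ℂ), 0; 0, 1] := by
      rw [← hexp]; rfl
    rw [Units.val_mul, Units.val_mul, Units.val_mul, Units.val_mul, hY, rot_mul309, e1, e2, hX]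
    exact decomp309 _ _ _ _ _ _ _ _ _ hζ hcs hE hDeq hD0 hr0
  rw [key, hN, hU U _ hUU, hZ (zS309 (Real.sqrt (sphD β d)) hr0) _ (Real.sqrt (sphD β d)) hrpos rfl]

end Fermat.Agent.LT.T2.H309

end
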